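import Fermat.Agent.OrdinaryProj.Eisenstein

/-!
# Eigenforms of `U`

An eigenform of `U` is ordinary if its eigenvalue is a unit, and `e` kills it if the eigenvalue has
norm below `1`.
-/

set_option autoImplicit false
set_option linter.unusedSectionVars false

noncomputable section

open PowerSeries Filter Topology

namespace FA.OrdinaryProj

open FA.PadicForms

variable {p : ℕ} [Fact p.Prime] {κ : Weights p} {f : PowerSeries ℚ_[p]} {c : ℚ_[p]}

theorem uPow_eigen (hU : uSer p f = C c * f) (i : ℕ) : uPow p i f = C (c ^ i) * f := by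
  induction i with
  | zero => rw [uPow_zero, pow_zero, map_one, one_mul]
  | succ i ih =>
    rw [← uPow_add', uPow_one, hU, uPow_C_mul, ih, ← mul_assoc, ← map_mul, pow_succ']

theorem tendsto_pow_factorial (hc : ‖c‖ = 1) :
    Tendsto (fun i : ℕ => c ^ i.factorial) atTop (𝓝 1) := by
  have hp : p.Prime := Fact.out
  refine tendsto_iff_norm_sub_tendsto_zero.2 (Metric.tendsto_atTop.2 fun ε hε => ?_)
  obtain ⟨a, ha⟩ := exists_pow_neg_lt (p := p) hε
  obtain ⟨x, hx⟩ : ∃ x : ℤ_[p], (x : ℚ_[p]) = c := ⟨⟨c, hc.le⟩, rfl⟩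
  have hx1 : (p : ℤ_[p]) ∣ x ^ (p - 1) - 1 := by
    rw [← Ideal.mem_span_singleton, ← PadicInt.maximalIdeal_eq_span_p, ← PadicInt.ker_toZMod,
      RingHom.mem_ker, map_sub, map_one, map_pow, sub_eq_zero]
    refine ZMod.pow_card_sub_one_eq_one fun e => ?_
    rw [← RingHom.mem_ker, PadicInt.ker_toZMod, IsLocalRing.mem_maximalIdeal, mem_nonunits_iff,
      PadicInt.isUnit_iff, PadicInt.norm_def, hx] at e
    exact e hc
  refine ⟨(p - 1) * p ^ a, fun i hi => ?_⟩
  obtain ⟨t, ht⟩ := Nat.dvd_factorial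
    (Nat.mul_pos (by have := hp.two_le; omega) (pow_pos hp.pos a)) hi
  have h1 := dvd_sub_pow_of_dvd_sub hx1 a
  rw [one_pow, ← pow_mul] at h1
  have h2 := norm_le_iff_dvd.2 (h1.trans (sub_one_dvd_pow_sub_one _ t))
  rw [← pow_mul, ← ht, PadicInt.norm_def] at h2
  push_cast [hx] at h2
  rw [Real.dist_eq, sub_zero, abs_of_nonneg (norm_nonneg _)]
  exact h2.trans_lt (lt_of_le_of_lt (by
    have := pow_neg_mono (p := p) (Nat.le_succ a)
    push_cast at this
    exact this) ha)

theorem seriesTendsto_C_mul {x : ℕ → ℚ_[p]} {y : ℚ_[p]} (hf : ∃ B, SupLe f B)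
    (h : Tendsto x atTop (𝓝 y)) : SeriesTendsto (fun i => C (x i) * f) (C y * f) := fun ε hε => by
  obtain ⟨B, hB⟩ := hf
  obtain ⟨e, he⟩ := exists_pow_ge (p := p) B
  obtain ⟨N, hN⟩ := Metric.tendsto_atTop.1 h (ε / (p : ℝ) ^ (e : ℤ))
    (div_pos hε (zpow_pos' _))
  refine eventually_atTop.2 ⟨N, fun i hi => ?_⟩
  show SupLe (C (x i) * f - C y * f) ε
  rw [← sub_mul, ← map_sub]
  refine (hB.C_mul _).mono ?_
  have h1 := hN i hi
  rw [dist_eq_norm, lt_div_iff₀ (zpow_pos' _)] at h1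
  exact (mul_le_mul_of_nonneg_left he (norm_nonneg _)).trans h1.le

/-- An eigenform with a unit eigenvalue is ordinary. -/
theorem eigen_mem_ordPart (h5 : 5 ≤ p) (hf : IsPadicForm f κ) (hU : uSer p f = C c * f)
    (hc : ‖c‖ = 1) : f ∈ ordPart κ := by
  refine (mem_ordPart h5).2 ⟨hf, ordProj_eq ?_⟩
  have h := seriesTendsto_C_mul hf.exists_supLe (tendsto_pow_factorial hc)
  rw [map_one, one_mul] at h
  simpa only [uPow_eigen hU] using h

/-- `e` kills the eigenforms whose eigenvalue has norm below `1`. -/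
theorem ordProj_eigen_eq_zero (hf : IsPadicForm f κ) (hU : uSer p f = C c * f) (hc : ‖c‖ < 1) :
    ordProj p f = 0 := by
  refine ordProj_eq ?_
  have h := seriesTendsto_C_mul hf.exists_supLe
    ((tendsto_pow_atTop_nhds_zero_of_norm_lt_one hc).comp
      (tendsto_atTop_mono Nat.self_le_factorial tendsto_id))
  rw [map_zero, zero_mul] at h
  simpa only [uPow_eigen hU, Function.comp_apply] using h

end FA.OrdinaryProj

end
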