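import Fermat.Agent.OrdinaryProj.Rank

/-!
# The Eisenstein line

`U` fixes `G*_κ`, so it is ordinary. Where the forms modulo `p` of a weight `k ≥ 3` of the class
make a line, the ordinary part is the line of `G*_κ`.
-/

set_option autoImplicit false
set_option linter.unusedSectionVars false

noncomputable section

open PowerSeries Filter Topology
open scoped ArithmeticFunction.sigma

namespace FA.OrdinaryProj

open FA.PadicForms FA.SwinnertonDyer

variable {p : ℕ} [Fact p.Prime] {κ : Weights p} {k : ℕ}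

theorem starSum_mul_prime (k : ℕ) {n : ℕ} (hn : n ≠ 0) :
    starSum p k (p * n) = starSum p k n := by
  have hp : p.Prime := Fact.out
  have h1 := sigma_star (p := p) k (mul_ne_zero hp.ne_zero hn)
  rw [if_pos (dvd_mul_right p n), Nat.mul_div_cancel_left _ hp.pos, sigma_split k hn] at h1
  omega

/-- **`U G*_κ = G*_κ`.** -/
theorem exists_eisenstein_fixed (h5 : 5 ≤ p) {j : ℕ} (hj : κ.1 = ((2 * j : ℕ) : ZMod (p - 1)))
    (hκ : κ ≠ 0) : ∃ G : PowerSeries ℚ_[p], IsPadicForm G κ ∧ uSer p G = G ∧ coeff 1 G = 1 ∧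
      ∀ k : ℕ → ℕ, (∀ i, Even (k i)) → (∀ i, 4 ≤ k i) → Tendsto k atTop atTop → WeightsTo k κ →
        SeriesTendsto (fun i => toQp p (eisSer (k i))) G := by
  have hp : p.Prime := Fact.out
  obtain ⟨G, hG, hGl⟩ := eisenstein_family h5 hj hκ
  obtain ⟨K, hK⟩ := exists_even_near h5 hj
  have hlim := hGl K (fun i => (hK i).1) (fun i => (hK i).2.1)
    (tendsto_atTop_mono (fun i => (hK i).2.2.1) tendsto_id)
    fun a => eventually_atTop.2 ⟨a, fun i hi => (hK i).2.2.2.mono hi⟩
  refine ⟨G, hG, PowerSeries.ext fun n => ?_, ?_, hGl⟩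
  · rw [coeff_uSer]
    rcases eq_or_ne n 0 with rfl | hn
    · rw [mul_zero]
    have h0 : Tendsto (fun i => coeff (p * n) (toQp p (eisSer (K i))) -
        coeff n (toQp p (eisSer (K i)))) atTop (𝓝 0) := by
      refine tendsto_zero_iff_norm_tendsto_zero.2 (Metric.tendsto_atTop.2 fun ε hε => ?_)
      obtain ⟨a, ha⟩ := exists_pow_neg_lt (p := p) hε
      refine ⟨a + 2, fun i hi => ?_⟩
      have hKi : a + 2 ≤ K i := hi.trans (hK i).2.2.1
      have h1 := fun m => norm_sigma_sub (p := p) (k := K i) (k' := K i) (a := a) (n := m)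
        (by omega) hKi (by simp)
      rw [Real.dist_eq, sub_zero, abs_of_nonneg (norm_nonneg _), coeff_toQp, coeff_toQp, eisSer,
        coeff_mk, coeff_mk, if_neg hn, if_neg (mul_ne_zero hp.ne_zero hn), Rat.cast_natCast,
        Rat.cast_natCast,
        ← sub_sub_sub_cancel_right _ _ ((starSum p (K i) n : ℕ) : ℚ_[p]), sub_eq_add_neg (_ - _)]
      refine lt_of_le_of_lt ((Padic.nonarchimedean _ _).trans (max_le ?_
        (by rw [norm_neg]; exact h1 n))) ((pow_neg_mono (Nat.le_succ a)).trans_lt ha)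
      rw [← starSum_mul_prime (K i) hn]
      exact h1 (p * n)
    exact sub_eq_zero.1
      (tendsto_nhds_unique ((tendsto_coeff hlim (p * n)).sub (tendsto_coeff hlim n)) h0)
  · refine tendsto_nhds_unique (tendsto_coeff hlim 1) (tendsto_const_nhds.congr fun i => ?_)
    simp [eisSer]

/-- `G*_κ` is ordinary. -/
theorem fixed_mem_ordPart (h5 : 5 ≤ p) {G : PowerSeries ℚ_[p]} (hG : IsPadicForm G κ)
    (hU : uSer p G = G) : G ∈ ordPart κ := by
  have h : ∀ i, uPow p i G = G := fun i => by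
    induction i with
    | zero => exact uPow_zero G
    | succ i ih => rw [← uPow_add', uPow_one, hU, ih]
  refine (mem_ordPart h5).2 ⟨hG, ordProj_eq fun ε hε => Eventually.of_forall fun i => ?_⟩
  show SupLe (uPow p i.factorial G - G) ε
  rw [h]
  exact fun n => by simp [hε.le]

theorem one_le_finrank (h5 : 5 ≤ p) {j : ℕ} (hj : κ.1 = ((2 * j : ℕ) : ZMod (p - 1))) :
    1 ≤ Module.finrank ℚ_[p] ↥(ordPart κ) := by
  obtain ⟨k, hk, hk2⟩ : ∃ k, 3 ≤ k ∧ k = 2 * (j + (p - 1)) := ⟨_, by omega, rfl⟩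
  have hc : (k : ZMod (p - 1)) = κ.1 := by
    rw [hk2, hj]
    push_cast [ZMod.natCast_self]
    ring
  rw [(finrank_ordPart h5 hk hc).2, ← (finrank_ordPart (κ := natWeight p k) h5 hk rfl).2]
  obtain ⟨G, hG, hU, h1, -⟩ := exists_eisenstein_fixed (κ := natWeight p k) h5 (j := j + (p - 1))
    (by rw [natWeight, hk2]) (natWeight_ne_zero (by omega))
  have hm := fixed_mem_ordPart h5 hG hU
  have := (finrank_ordPart (κ := natWeight p k) h5 hk rfl).1
  refine Nat.one_le_iff_ne_zero.2 fun h0 => ?_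
  rw [Submodule.finrank_eq_zero] at h0
  rw [h0, Submodule.mem_bot] at hm
  rw [hm, map_zero] at h1
  exact zero_ne_one h1

/-- In these weights the forms modulo `p` make a line. -/
theorem ordModP_le_line (h5 : 5 ≤ p) (hk : k ∈ ({4, 6, 8, 10, 14} : Finset ℕ)) :
    ∃ w : PowerSeries (ZMod p), ordModP p k ≤ Submodule.span (ZMod p) {w} := by
  obtain ⟨a, b, hab, huniq⟩ : ∃ a b : ℕ, 4 * a + 6 * b = k ∧
      ∀ x y : ℕ, 4 * x + 6 * y = k → x = a ∧ y = b := by
    simp only [Finset.mem_insert, Finset.mem_singleton] at hk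
    rcases hk with rfl | rfl | rfl | rfl | rfl
    · exact ⟨1, 0, rfl, fun x y h => by omega⟩
    · exact ⟨0, 1, rfl, fun x y h => by omega⟩
    · exact ⟨2, 0, rfl, fun x y h => by omega⟩
    · exact ⟨1, 1, rfl, fun x y h => by omega⟩
    · exact ⟨2, 1, rfl, fun x y h => by omega⟩
  obtain ⟨d, hd0, hd1⟩ : ∃ d : Fin 2 →₀ ℕ, d 0 = a ∧ d 1 = b :=
    ⟨Finsupp.single 0 a + Finsupp.single 1 b, by simp, by simp⟩
  refine ⟨phi p (MvPolynomial.monomial d 1), fun v hv => ?_⟩
  obtain ⟨F, hF, rfl⟩ := ((mem_ordModP h5).1 hv).1.exists_isob h5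
  refine Submodule.mem_span_singleton.2 ⟨MvPolynomial.coeff d F, ?_⟩
  rw [PowerSeries.smul_eq_C_mul,
    show C (MvPolynomial.coeff d F) = phi p (MvPolynomial.C (MvPolynomial.coeff d F)) by simp [phi],
    ← map_mul, MvPolynomial.C_mul_monomial, mul_one]
  congr 1
  ext e
  rw [MvPolynomial.coeff_monomial]
  split_ifs with he
  · rw [he]
  · refine (hF.coeff_eq_zero e fun hw => he ?_).symm
    rw [weight_eq] at hw
    obtain ⟨h0, h1⟩ := huniq _ _ hw
    refine Finsupp.ext fun i => ?_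
    fin_cases i
    · exact hd0.trans h0.symm
    · exact hd1.trans h1.symm

/-- **The Eisenstein line.** -/
theorem ordPart_eq_line (h5 : 5 ≤ p) (hk : k ∈ ({4, 6, 8, 10, 14} : Finset ℕ))
    (hc : (k : ZMod (p - 1)) = κ.1) {G : PowerSeries ℚ_[p]} (hG : IsPadicForm G κ)
    (hU : uSer p G = G) (h1 : coeff 1 G = 1) : ordPart κ = Submodule.span ℚ_[p] {G} := by
  have hk3 : 3 ≤ k := by
    simp only [Finset.mem_insert, Finset.mem_singleton] at hk
    omega
  obtain ⟨hfin, he⟩ := finrank_ordPart h5 hk3 hc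
  obtain ⟨w, hw⟩ := ordModP_le_line h5 hk
  have hmem := fixed_mem_ordPart h5 hG hU
  have hG0 : G ≠ 0 := fun e => by simp [e] at h1
  refine (Submodule.eq_of_le_of_finrank_le (Submodule.span_le.2 (Set.singleton_subset_iff.2 hmem))
    ?_).symm
  rw [finrank_span_singleton hG0, he]
  refine (Submodule.finrank_mono hw).trans ?_
  simpa using finrank_span_le_card (R := ZMod p) ({w} : Set (PowerSeries (ZMod p)))

end FA.OrdinaryProj

end
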