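import Fermat.Agent.OrdinaryProj.Proj

/-!
# Lifting forms modulo `p` to every weight of their class

A form modulo `p` lifts to a classical form; multiplied by a form of weight in `0 × ℤ_p` congruent
to `1`, a limit of powers of the normalised `E_(p-1)`, it lifts to every weight of the class.
-/

set_option autoImplicit false
set_option linter.unusedSectionVars false

noncomputable section

open PowerSeries Filter Topology

namespace FA.OrdinaryProj

open FA.PadicForms FA.SwinnertonDyer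

variable {p : ℕ} [Fact p.Prime]

/-- A classical lift. -/
theorem exists_lift_classical {n : ℕ} {v : PowerSeries (ZMod p)} (h : IsFormModP p n v) :
    ∃ (S : PowerSeries ℚ) (g : PowerSeries ℤ_[p]), IsRatForm n S ∧ toQps p g = toQp p S ∧
      redSer p g = v := by
  obtain ⟨F, T, hF, hT⟩ := h
  refine ⟨T.map (Int.castRingHom ℚ), T.map (Int.castRingHom ℤ_[p]), IsRatForm.of_int hF,
    PowerSeries.ext fun j => by simp, PowerSeries.ext fun j => ?_⟩
  simp [← hT]

/-- A form congruent to `1` of each weight in `0 × ℤ_p`. -/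
theorem exists_unit_form (h5 : 5 ≤ p) {δ : Weights p} (hδ : δ.1 = 0) :
    ∃ P : PowerSeries ℤ_[p], IsIntForm δ P ∧ redSer p P = 1 := by
  have hp : p.Prime := Fact.out
  obtain ⟨W, hW, hW'⟩ := exists_pad (p := p) h5 0 1
  simp only [pow_zero, mul_one] at hW
  have hW1 : SupLe (toQp p W) 1 := (show SupLe (1 : PowerSeries ℚ_[p]) 1 from fun n => by
    rw [coeff_one]; split_ifs <;> simp).of_near
      (hW'.mono (zpow_le_one_of_nonpos₀ one_lt_cast.le (by omega)))
  obtain ⟨w, hw⟩ : ∃ w : PowerSeries ℤ_[p], toQps p w = toQp p W :=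
    ⟨PowerSeries.mk fun n => ⟨_, hW1 n⟩, PowerSeries.ext fun n => by rw [coeff_toQps, coeff_mk]⟩
  have hw1 : (p : PowerSeries ℤ_[p]) ∣ w - 1 := by
    rw [← pow_one (p : PowerSeries ℤ_[p]), ← supLe_iff, map_sub, map_one, hw]
    exact hW'.mono (pow_neg_mono (Nat.le_refl 1))
  have hpow : ∀ v t : ℕ, (p : PowerSeries ℤ_[p]) ^ (v + 1) ∣ w ^ (p ^ v * t) - 1 := fun v t => by
    have h1 := dvd_sub_pow_of_dvd_sub hw1 v
    rw [one_pow] at h1
    rw [pow_mul]
    exact h1.trans (sub_one_dvd_pow_sub_one _ t)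
  have hu : IsUnit (((p - 1 : ℕ)) : ℤ_[p]) := PadicInt.isUnit_iff.2 (le_antisymm
    (PadicInt.norm_le_one _) (not_lt.1 fun hlt => by
      rw [← Int.cast_natCast, PadicInt.norm_int_lt_one_iff_dvd, Int.natCast_dvd_natCast] at hlt
      have := Nat.le_of_dvd (by omega) hlt
      omega))
  obtain ⟨u, hu⟩ := hu
  obtain ⟨s, hs⟩ : ∃ s : ℤ_[p], s = δ.2 * ↑u⁻¹ := ⟨_, rfl⟩
  have hstep : ∀ a, (p : PowerSeries ℤ_[p]) ^ a ∣ w ^ s.appr (a + 1) - w ^ s.appr a := fun a => by
    obtain ⟨t, ht⟩ := PadicInt.dvd_appr_sub_appr s a (a + 1) (Nat.le_succ a)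
    rw [show s.appr (a + 1) = s.appr a + p ^ a * t by
      have := PadicInt.appr_mono s (show a ≤ a + 1 by omega); omega, pow_add, ← mul_sub_one]
    exact dvd_mul_of_dvd_right ((pow_dvd_pow _ (Nat.le_succ a)).trans (hpow a t)) _
  obtain ⟨P, hP⟩ := exists_limit (fun a => w ^ s.appr a) hstep
  refine ⟨P, IsPadicForm.of_approx fun a => ⟨toQps p (w ^ s.appr a),
    natWeight p (s.appr a * (p - 1)), ?_, ?_, ?_, ?_⟩, ?_⟩
  · rw [map_pow, hw, ← map_pow]
    exact (hW.pow _).isPadicForm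
  · rw [hδ, natWeight]
    push_cast [ZMod.natCast_self]
    ring
  · have e : δ.2 = s * ((p - 1 : ℕ) : ℤ_[p]) := by
      rw [hs, ← hu, mul_assoc, Units.inv_mul, mul_one]
    show ‖((s.appr a * (p - 1) : ℕ) : ℤ_[p]) - δ.2‖ ≤ (p : ℝ) ^ (-(a : ℤ))
    rw [e, Nat.cast_mul, ← sub_mul, norm_mul, norm_sub_rev]
    refine (mul_le_of_le_one_right (norm_nonneg _) (PadicInt.norm_le_one _)).trans ?_
    rw [PadicInt.norm_le_pow_iff_mem_span_pow]
    exact PadicInt.appr_spec a s
  · rw [← map_sub, supLe_iff, dvd_sub_comm]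
    exact hP a
  · rw [← map_one (redSer p), redSer_eq_iff, ← sub_add_sub_cancel P (w ^ s.appr 1) 1]
    refine dvd_add ?_ (hw1.trans (sub_one_dvd_pow_sub_one _ _))
    simpa using hP 1

/-- **Lifts of every weight.** -/
theorem exists_lift (h5 : 5 ≤ p) {κ : Weights p} {n : ℕ} (hn : (n : ZMod (p - 1)) = κ.1)
    {v : PowerSeries (ZMod p)} (h : IsFormModP p n v) :
    ∃ g : PowerSeries ℤ_[p], IsIntForm κ g ∧ redSer p g = v := by
  obtain ⟨S, g, hS, hg, hv⟩ := exists_lift_classical h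
  obtain ⟨P, hP, hP1⟩ := exists_unit_form h5 (δ := κ - natWeight p n) (by simp [natWeight, hn])
  refine ⟨P * g, ?_, by rw [map_mul, hP1, hv, one_mul]⟩
  have h1 := IsPadicForm.mul hP (hS.isPadicForm (p := p))
  rwa [sub_add_cancel, ← hg, ← map_mul] at h1

end FA.OrdinaryProj

end
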