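import Fermat.Agent.OrdinaryProj.Series

/-!
# The forms modulo `p` fixed by a power of `U`

The weights of a form modulo `p` that is not zero are congruent modulo `p - 1`; the forms that a
power of `U` fixes have a weight at most `p + 1`, so in each class they form one finite space.
-/

set_option autoImplicit false
set_option linter.unusedSectionVars false

noncomputable section

open PowerSeries

namespace FA.OrdinaryProj

open FA.PadicForms FA.SwinnertonDyer

variable {p : ℕ} [Fact p.Prime] {m n k : ℕ} {v w : PowerSeries (ZMod p)}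

theorem isFormModP_zero' (n : ℕ) : IsFormModP p n (0 : PowerSeries (ZMod p)) := by
  rw [← map_zero (phi p)]
  exact isFormModP_phi (MvPolynomial.isWeightedHomogeneous_zero _ _ _)

theorem formModP_smul' (h5 : 5 ≤ p) (h : IsFormModP p n v) (c : ZMod p) :
    IsFormModP p n (C c * v) := by
  obtain ⟨F, hF, rfl⟩ := h.exists_isob h5
  rw [show C c * phi p F = phi p (MvPolynomial.C c * F) by simp [phi]]
  exact isFormModP_phi (hF.C_mul c)

theorem formModP_add (h5 : 5 ≤ p) (h : IsFormModP p n v) (h' : IsFormModP p n w) :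
    IsFormModP p n (v + w) := by
  rw [← sub_neg_eq_add, ← zero_sub w]
  exact h.sub h5 ((isFormModP_zero' n).sub h5 h')

/-- The weights of a form modulo `p` that is not zero agree modulo `p - 1`. -/
theorem class_eq (h5 : 5 ≤ p) (h : IsFormModP p m v) (h' : IsFormModP p n v) (hv : v ≠ 0) :
    (m : ZMod (p - 1)) = (n : ZMod (p - 1)) := by
  wlog hle : m ≤ n generalizing m n
  · exact (this h' h (le_of_not_ge hle)).symm
  obtain ⟨F, S, hF, hS⟩ := h
  obtain ⟨G, S', hG, hS'⟩ := h'
  have hd := FA.PadicForms.weight_dvd_of_congr h5 hle le_rfl F G hF hG (fun j => by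
    rw [pow_one, ← ZMod.intCast_zmod_eq_zero_iff_dvd, Int.cast_sub, sub_eq_zero]
    simpa [← hS] using congrArg (coeff j) hS') (by rwa [hS])
  rw [Nat.sub_self, pow_zero, mul_one, ← ZMod.natCast_eq_zero_iff, Nat.cast_sub hle,
    sub_eq_zero] at hd
  exact hd.symm

/-- A form of weight at most `p + 1` has every larger weight `k ≥ 3` of its class. -/
theorem formModP_raise (h5 : 5 ≤ p) (h : IsFormModP p m v) (hm : m ≤ p + 1) (hk : 3 ≤ k)
    (hc : (m : ZMod (p - 1)) = (k : ZMod (p - 1))) : IsFormModP p k v := by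
  have hmk : m ≤ k := by
    by_contra hlt
    have h1 : p - 1 ∣ m - k := by
      rw [← ZMod.natCast_eq_zero_iff, Nat.cast_sub (by omega), hc, sub_self]
    have := Nat.le_of_dvd (by omega) h1
    omega
  obtain ⟨i, hi⟩ : p - 1 ∣ k - m := by
    rw [← ZMod.natCast_eq_zero_iff, Nat.cast_sub hmk, hc, sub_self]
  have h2 := h.add_weight h5 i
  rwa [show m + i * (p - 1) = k by rw [mul_comm, ← hi]; omega] at h2

theorem uPow_fixed {d : ℕ} (hv : uPow p d v = v) (j : ℕ) : uPow p (d * j) v = v := by
  induction j with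
  | zero => exact uPow_zero v
  | succ j ih => rw [Nat.mul_succ, ← uPow_add', hv, ih]

/-- A form fixed by a power of `U` has weight at most `p + 1`. -/
theorem weight_of_fixed (h5 : 5 ≤ p) (h : IsFormModP p n v) {d : ℕ} (hd : 0 < d)
    (hv : uPow p d v = v) : ∃ m ≤ p + 1, IsFormModP p m v := by
  obtain ⟨m, hm, hf⟩ := exists_weight_uOp_iterate h5 h (d * n)
  rw [uPow_eq_iterate, uPow_fixed hv n] at hf
  have : n ≤ d * n := Nat.le_mul_of_pos_left _ hd
  exact ⟨m, by omega, hf⟩

/-- The powers of `U` of a form modulo `p` become periodic. -/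
theorem exists_period_modP (h5 : 5 ≤ p) (h : IsFormModP p n v) :
    ∃ i₀ d, 0 < d ∧ ∀ i, i₀ ≤ i → uPow p (i + d) v = uPow p i v := by
  have hfin : (⋃ m ∈ Set.Iic (p + 1), {f : PowerSeries (ZMod p) | IsFormModP p m f}).Finite :=
    (Set.finite_Iic _).biUnion fun m _ => finite_forms h5 m
  obtain ⟨i, j, hij, he⟩ := hfin.exists_lt_map_eq_of_forall_mem (f := fun i => uPow p (n + i) v)
    fun i => by
      obtain ⟨m, hm, hf⟩ := exists_weight_uOp_iterate h5 h (n + i)
      rw [uPow_eq_iterate] at hf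
      exact Set.mem_biUnion (Set.mem_Iic.2 (show m ≤ p + 1 by omega)) hf
  refine ⟨n + i, j - i, by omega, fun l hl => ?_⟩
  obtain ⟨t, rfl⟩ : ∃ t, l = t + (n + i) := ⟨l - (n + i), by omega⟩
  rw [add_assoc, show n + i + (j - i) = n + j by omega, ← uPow_add' (p := p) t (n + j), ← he,
    uPow_add']

/-- The space of forms of weight `k` modulo `p` fixed by some power of `U`. -/
def ordModP (p k : ℕ) [Fact p.Prime] : Submodule (ZMod p) (PowerSeries (ZMod p)) :=
  Submodule.span (ZMod p) {v | IsFormModP p k v ∧ ∃ d, 0 < d ∧ uPow p d v = v}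

theorem mem_ordModP (h5 : 5 ≤ p) :
    v ∈ ordModP p k ↔ IsFormModP p k v ∧ ∃ d, 0 < d ∧ uPow p d v = v := by
  refine ⟨fun h => ?_, fun h => Submodule.subset_span h⟩
  induction h using Submodule.span_induction with
  | mem v h => exact h
  | zero => exact ⟨isFormModP_zero' k, 1, one_pos, PowerSeries.ext fun j => by simp⟩
  | add v w _ _ hv hw =>
    obtain ⟨hv, d, hd, hd'⟩ := hv
    obtain ⟨hw, e, he, he'⟩ := hw
    refine ⟨formModP_add h5 hv hw, d * e, Nat.mul_pos hd he, ?_⟩
    rw [uPow_add, uPow_fixed hd', mul_comm, uPow_fixed he']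
  | smul c v _ hv =>
    obtain ⟨hv, d, hd, hd'⟩ := hv
    rw [PowerSeries.smul_eq_C_mul]
    exact ⟨formModP_smul' h5 hv c, d, hd, by rw [uPow_C_mul, hd']⟩

theorem finite_ordModP (h5 : 5 ≤ p) (k : ℕ) : Finite ↥(ordModP p k) :=
  ((finite_forms h5 k).subset fun _ hv => ((mem_ordModP h5).1 hv).1).to_subtype

/-- Every form fixed by a power of `U` lies in the space of each weight `k ≥ 3` of its class. -/
theorem mem_ordModP_of_class (h5 : 5 ≤ p) (h : IsFormModP p n v)
    (hc : (n : ZMod (p - 1)) = (k : ZMod (p - 1))) (hk : 3 ≤ k) {d : ℕ} (hd : 0 < d)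
    (hv : uPow p d v = v) : v ∈ ordModP p k := by
  rcases eq_or_ne v 0 with rfl | hne
  · exact zero_mem _
  obtain ⟨m, hm, hf⟩ := weight_of_fixed h5 h hd hv
  exact (mem_ordModP h5).2
    ⟨formModP_raise h5 hf hm hk ((class_eq h5 hf h hne).trans hc), d, hd, hv⟩

end FA.OrdinaryProj

end
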