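import Fermat.Agent.OrdinaryProj.ModP
import Mathlib.Algebra.CharP.Lemmas

/-!
# The orbit of an integral `p`-adic form under `U`

An integral `p`-adic form reduces to a form modulo `p` of its class; so modulo each power of `p`
its orbit under `U` becomes periodic.
-/

set_option autoImplicit false
set_option linter.unusedSectionVars false

noncomputable section

open PowerSeries Filter Topology

namespace FA.OrdinaryProj

open FA.PadicForms FA.SwinnertonDyer

variable {p : ℕ} [Fact p.Prime] {κ : Weights p} {g h : PowerSeries ℤ_[p]}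

/-- An integral `p`-adic form. -/
def IsIntForm (κ : Weights p) (g : PowerSeries ℤ_[p]) : Prop := IsPadicForm (toQps p g) κ

theorem toQps_natCast_pow (a : ℕ) :
    toQps p ((p : PowerSeries ℤ_[p]) ^ a) = C ((p : ℚ_[p]) ^ a) := by
  rw [map_pow, map_natCast, map_pow, map_natCast (C : ℚ_[p] →+* PowerSeries ℚ_[p])]

theorem IsIntForm.sub (h5 : 5 ≤ p) (hg : IsIntForm κ g) (hh : IsIntForm κ h) :
    IsIntForm κ (g - h) := by
  rw [IsIntForm, map_sub]
  exact IsPadicForm.sub h5 hg hh

theorem IsIntForm.uPow (h5 : 5 ≤ p) (hg : IsIntForm κ g) (i : ℕ) :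
    IsIntForm κ (FA.OrdinaryProj.uPow p i g) := by
  induction i with
  | zero => rwa [uPow_zero]
  | succ i ih =>
    rw [IsIntForm] at ih ⊢
    have h1 := ih.uSer h5
    rwa [← uPow_one, toQps_uPow, uPow_add', add_comm, ← toQps_uPow] at h1

/-- Dividing by a power of `p`. -/
theorem IsIntForm.div_pow {a : ℕ} (hg : IsIntForm κ ((p : PowerSeries ℤ_[p]) ^ a * h)) :
    IsIntForm κ h := by
  have h1 := IsPadicForm.C_mul hg ((p : ℚ_[p]) ^ a)⁻¹
  rwa [map_mul, toQps_natCast_pow, ← mul_assoc, ← map_mul,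
    inv_mul_cancel₀ (pow_ne_zero _ (Nat.cast_ne_zero.2 (Fact.out : p.Prime).ne_zero)), map_one,
    one_mul] at h1

/-- **The reduction of an integral form** is a form modulo `p` of its class. -/
theorem IsIntForm.exists_modP (h5 : 5 ≤ p) (hg : IsIntForm κ g) :
    ∃ n : ℕ, (n : ZMod (p - 1)) = κ.1 ∧ IsFormModP p n (redSer p g) := by
  obtain ⟨k, S, hS, hk, hd⟩ := hg 1
  have hb : SupLe (toQp p S) 1 :=
    (supLe_toQps g).of_near (hd.mono (zpow_le_one_of_nonpos₀ one_lt_cast.le (by omega)))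
  obtain ⟨D, T, F, hD, hF, hT⟩ := hS.exists_prime_to hb
  have hD' : (D : ZMod p) ≠ 0 := fun e => hD ((ZMod.natCast_eq_zero_iff _ _).1 e)
  have hT' : IsFormModP p k (T.map (Int.castRingHom (ZMod p))) := ⟨F, T, hF, rfl⟩
  refine ⟨k, hk.1, ?_⟩
  have e : redSer p g = C (D : ZMod p)⁻¹ * T.map (Int.castRingHom (ZMod p)) := by
    refine PowerSeries.ext fun n => ?_
    have h1 := congrArg (coeff n) hT
    rw [PowerSeries.coeff_smul, coeff_map, eq_intCast, smul_eq_mul] at h1
    have h2 : ((coeff n T : ℤ) : ℤ_[p]) - (D : ℤ_[p]) * coeff n g ∈ Ideal.span {(p : ℤ_[p]) ^ 1} := by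
      rw [← PadicInt.norm_le_pow_iff_mem_span_pow, PadicInt.norm_def]
      push_cast
      rw [← Rat.cast_intCast, ← h1, Rat.cast_mul, Rat.cast_natCast, ← mul_sub, norm_mul]
      refine (mul_le_of_le_one_left (norm_nonneg _)
        (by exact_mod_cast Padic.norm_int_le_one (p := p) (D : ℤ))).trans ?_
      simpa using hd n
    rw [pow_one, ← PadicInt.maximalIdeal_eq_span_p, ← PadicInt.ker_toZMod, RingHom.mem_ker,
      map_sub, map_mul, map_intCast, map_natCast, sub_eq_zero] at h2
    rw [coeff_redSer, coeff_C_mul, coeff_map, eq_intCast, h2, inv_mul_cancel_left₀ hD']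
  rw [e]
  exact formModP_smul' h5 hT' _

/-- The orbit of `g` under `U` becomes periodic modulo every power of `p`. -/
theorem exists_period (h5 : 5 ≤ p) (a : ℕ) : ∀ {g : PowerSeries ℤ_[p]}, IsIntForm κ g →
    ∃ i₀ d, 0 < d ∧ ∀ i, i₀ ≤ i →
      (p : PowerSeries ℤ_[p]) ^ a ∣ uPow p (i + d) g - uPow p i g := by
  induction a with
  | zero => exact fun _ => ⟨0, 1, one_pos, fun i _ => by simp⟩
  | succ a ih =>
    intro g hg
    obtain ⟨i₀, d, hd, hper⟩ := ih hg
    obtain ⟨h, hh⟩ := hper i₀ le_rfl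
    have hh' : IsIntForm κ h := IsIntForm.div_pow (a := a)
      (hh ▸ (hg.uPow h5 _).sub h5 (hg.uPow h5 _))
    obtain ⟨n, -, hn⟩ := hh'.exists_modP h5
    obtain ⟨i₁, d', hd', hper'⟩ := exists_period_modP h5 hn
    refine ⟨i₀ + i₁, d * (p * d'), Nat.mul_pos hd (Nat.mul_pos (Fact.out : p.Prime).pos hd'),
      fun i hi => ?_⟩
    obtain ⟨t, rfl⟩ : ∃ t, i = i₀ + t := ⟨i - i₀, by omega⟩
    have e : ∀ j : ℕ, uPow p (i₀ + t + d * (j + 1)) g - uPow p (i₀ + t + d * j) g =
        (p : PowerSeries ℤ_[p]) ^ a * uPow p (t + d * j) h := fun j => by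
      rw [show i₀ + t + d * (j + 1) = t + d * j + (i₀ + d) by ring,
        show i₀ + t + d * j = t + d * j + i₀ by ring, ← uPow_add' (i := t + d * j),
        ← uPow_add' (i := t + d * j), ← uPow_sub, hh,
        ← map_natCast (C : ℤ_[p] →+* PowerSeries ℤ_[p]) p, ← map_pow, uPow_C_mul]
    have hsum : uPow p (i₀ + t + d * (p * d')) g - uPow p (i₀ + t) g =
        (p : PowerSeries ℤ_[p]) ^ a * ∑ j ∈ Finset.range (p * d'), uPow p (t + d * j) h := by
      rw [Finset.mul_sum, ← Finset.sum_congr rfl (fun j _ => e j),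
        Finset.sum_range_sub (fun j => uPow p (i₀ + t + d * j) g), mul_zero, add_zero]
    rw [hsum, pow_succ]
    refine mul_dvd_mul_left _ (redSer_eq_zero.1 ?_)
    simp only [map_sum, redSer_uPow]
    have hblock : ∀ q l, uPow p (t + d * (l + d' * q)) (redSer p h) =
        uPow p (t + d * l) (redSer p h) := fun q l => by
      induction q with
      | zero => rw [mul_zero, add_zero]
      | succ q ihq =>
        rw [← ihq]
        have hm : ∀ u s, i₁ ≤ s →
            uPow p (s + d' * u) (redSer p h) = uPow p s (redSer p h) := fun u s hs => by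
          induction u with
          | zero => rw [mul_zero, add_zero]
          | succ u ihu => rw [Nat.mul_succ, ← add_assoc, hper' _ (by omega), ihu]
        rw [show t + d * (l + d' * (q + 1)) = t + d * (l + d' * q) + d' * d by ring]
        exact hm d _ (by omega)
    have hs : ∀ c, ∑ j ∈ Finset.range (c * d'), uPow p (t + d * j) (redSer p h) =
        c • ∑ j ∈ Finset.range d', uPow p (t + d * j) (redSer p h) := fun c => by
      induction c with
      | zero => simp
      | succ c ihc =>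
        rw [add_mul, one_mul, Finset.sum_range_add, ihc, succ_nsmul]
        congr 1
        exact Finset.sum_congr rfl fun l _ => by rw [add_comm (c * d'), mul_comm c, hblock c l]
    rw [hs p, ← Nat.cast_smul_eq_nsmul (ZMod p), ZMod.natCast_self, zero_smul]

/-- Multiples of a period. -/
theorem period_mul {a i₀ d : ℕ}
    (hper : ∀ i, i₀ ≤ i → (p : PowerSeries ℤ_[p]) ^ a ∣ uPow p (i + d) g - uPow p i g) (j : ℕ)
    {i : ℕ} (hi : i₀ ≤ i) :
    (p : PowerSeries ℤ_[p]) ^ a ∣ uPow p (i + d * j) g - uPow p i g := by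
  induction j with
  | zero => simp
  | succ j ih =>
    rw [Nat.mul_succ, ← add_assoc, ← sub_add_sub_cancel _ (uPow p (i + d * j) g)]
    exact dvd_add (hper _ (by omega)) ih

/-- **`lim U ^ n! g` exists.** -/
theorem exists_proj (h5 : 5 ≤ p) (hg : IsIntForm κ g) :
    ∃ L : PowerSeries ℤ_[p], IsIntForm κ L ∧
      ∀ a : ℕ, ∀ᶠ i : ℕ in atTop, (p : PowerSeries ℤ_[p]) ^ a ∣ L - uPow p i.factorial g := by
  have hev : ∀ a : ℕ, ∃ N : ℕ, ∀ i : ℕ, N ≤ i →
      (p : PowerSeries ℤ_[p]) ^ a ∣ uPow p i.factorial g - uPow p N.factorial g := fun a => by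
    obtain ⟨i₀, d, hd, hper⟩ := exists_period h5 a hg
    refine ⟨max i₀ d, fun i hi => ?_⟩
    obtain ⟨j, hj⟩ : d ∣ i.factorial - (max i₀ d).factorial :=
      Nat.dvd_sub ((Nat.dvd_factorial hd (le_max_right i₀ d)).trans (Nat.factorial_dvd_factorial hi))
        (Nat.dvd_factorial hd (le_max_right _ _))
    have := Nat.factorial_le hi
    rw [show i.factorial = (max i₀ d).factorial + d * j by omega]
    exact period_mul hper j ((le_max_left _ _).trans (Nat.self_le_factorial _))
  choose N hN using hev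
  obtain ⟨M, hM⟩ : ∃ M : ℕ → ℕ, ∀ a, M a = ∑ b ∈ Finset.range (a + 1), N b := ⟨_, fun _ => rfl⟩
  have hNM : ∀ a b, a ≤ b → N a ≤ M b := fun a b hb => hM b ▸
    Finset.single_le_sum (f := N) (fun _ _ => Nat.zero_le _) (Finset.mem_range.2 (by omega))
  have hclose : ∀ a i i', N a ≤ i → N a ≤ i' →
      (p : PowerSeries ℤ_[p]) ^ a ∣ uPow p i.factorial g - uPow p i'.factorial g :=
    fun a i i' hi hi' => by
      rw [← sub_sub_sub_cancel_right _ _ (uPow p (N a).factorial g)]
      exact dvd_sub (hN a i hi) (hN a i' hi')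
  obtain ⟨L, hL⟩ := exists_limit (fun a => uPow p (M a).factorial g)
    fun a => hclose a _ _ (hNM a (a + 1) (Nat.le_succ a)) (hNM a a le_rfl)
  have hLa : ∀ a : ℕ, ∀ᶠ i : ℕ in atTop, (p : PowerSeries ℤ_[p]) ^ a ∣ L - uPow p i.factorial g :=
    fun a => eventually_atTop.2 ⟨N a, fun i hi => by
      rw [← sub_add_sub_cancel L (uPow p (M a).factorial g)]
      exact dvd_add (hL a) (hclose a _ _ (hNM a a le_rfl) hi)⟩
  refine ⟨L, IsPadicForm.of_approx fun a => ?_, hLa⟩
  obtain ⟨i, hi⟩ := (hLa a).exists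
  refine ⟨_, κ, hg.uPow h5 i.factorial, rfl, ?_, ?_⟩
  · rw [sub_self, norm_zero]
    exact (zpow_pos' _).le
  · rw [← map_sub, supLe_iff, dvd_sub_comm]
    exact hi

end FA.OrdinaryProj

end
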