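import Fermat.Agent.OrdinaryProj.Orbit

/-!
# The ordinary projector

`e f = lim U ^ n! f` is a projector on the `p`-adic forms of each weight; it commutes with `U`.
-/

set_option autoImplicit false
set_option linter.unusedSectionVars false

noncomputable section

open PowerSeries Filter Topology

namespace FA.OrdinaryProj

open FA.PadicForms

variable {p : ℕ} [Fact p.Prime] {κ : Weights p} {f f' : PowerSeries ℚ_[p]}
  {g L : PowerSeries ℤ_[p]}

/-- `lim U ^ n! f`, coefficientwise. -/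
def ordProj (p : ℕ) [Fact p.Prime] (f : PowerSeries ℚ_[p]) : PowerSeries ℚ_[p] :=
  PowerSeries.mk fun n => limUnder atTop fun i : ℕ => coeff n (uPow p i.factorial f)

theorem tendsto_coeff {S : ℕ → PowerSeries ℚ_[p]} (h : SeriesTendsto S f) (n : ℕ) :
    Tendsto (fun i => coeff n (S i)) atTop (𝓝 (coeff n f)) := by
  refine tendsto_iff_norm_sub_tendsto_zero.2 (Metric.tendsto_atTop.2 fun ε hε => ?_)
  obtain ⟨N, hN⟩ := eventually_atTop.1 (h (ε / 2) (half_pos hε))
  refine ⟨N, fun i hi => ?_⟩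
  rw [Real.dist_eq, sub_zero, abs_of_nonneg (norm_nonneg _), ← map_sub]
  linarith [hN i hi n]

theorem ordProj_eq (h : SeriesTendsto (fun i => uPow p i.factorial f) f') : ordProj p f = f' :=
  PowerSeries.ext fun n => by
    rw [ordProj, coeff_mk]
    exact (tendsto_coeff h n).limUnder_eq

/-- Every form is a multiple of an integral one. -/
theorem exists_int_scale (h : IsPadicForm f κ) :
    ∃ (c : ℚ_[p]) (g : PowerSeries ℤ_[p]), c ≠ 0 ∧ IsIntForm κ g ∧ f = C c * toQps p g := by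
  obtain ⟨B, hB⟩ := h.exists_supLe
  obtain ⟨e, he⟩ := exists_pow_ge (p := p) B
  have hp0 : (p : ℚ_[p]) ≠ 0 := Nat.cast_ne_zero.2 (Fact.out : p.Prime).ne_zero
  have hb : SupLe (C ((p : ℚ_[p]) ^ e) * f) 1 := (hB.C_mul _).mono (by
    refine (mul_le_mul_of_nonneg_left he (norm_nonneg _)).trans (le_of_eq ?_)
    rw [Padic.norm_p_pow, ← zpow_add₀ (zero_lt_one.trans (one_lt_cast (p := p))).ne',
      neg_add_cancel, zpow_zero])
  have e1 : toQps p (PowerSeries.mk fun n => (⟨_, hb n⟩ : ℤ_[p])) = C ((p : ℚ_[p]) ^ e) * f :=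
    PowerSeries.ext fun n => by rw [coeff_toQps, coeff_mk]
  refine ⟨((p : ℚ_[p]) ^ e)⁻¹, _, inv_ne_zero (pow_ne_zero _ hp0),
    show IsPadicForm _ κ from e1 ▸ h.C_mul _, ?_⟩
  rw [e1, ← mul_assoc, ← map_mul, inv_mul_cancel₀ (pow_ne_zero _ hp0), map_one, one_mul]

/-- The limit of `exists_proj` is `e`. -/
theorem seriesTendsto_scale
    (hL : ∀ a : ℕ, ∀ᶠ i : ℕ in atTop, (p : PowerSeries ℤ_[p]) ^ a ∣ L - uPow p i.factorial g)
    (c : ℚ_[p]) :
    SeriesTendsto (fun i => uPow p i.factorial (C c * toQps p g)) (C c * toQps p L) := by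
  intro ε hε
  obtain ⟨e, he⟩ := exists_pow_ge (p := p) ‖c‖
  obtain ⟨a, ha⟩ := exists_pow_neg_lt (p := p) hε
  filter_upwards [hL (a + e)] with i hi
  rw [uPow_C_mul, ← toQps_uPow, ← mul_sub, ← map_sub]
  refine ((supLe_iff.2 (dvd_sub_comm.1 hi)).C_mul c).mono (le_trans ?_ ha.le)
  refine (mul_le_mul_of_nonneg_right he (zpow_pos' _).le).trans (le_of_eq ?_)
  rw [← zpow_add₀ (zero_lt_one.trans (one_lt_cast (p := p))).ne']
  push_cast
  ring_nf

/-- **The limit exists uniformly and is a form of the same weight.** -/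
theorem ordProj_spec (h5 : 5 ≤ p) (h : IsPadicForm f κ) :
    SeriesTendsto (fun i => uPow p i.factorial f) (ordProj p f) ∧
      IsPadicForm (ordProj p f) κ := by
  obtain ⟨c, g, -, hg, rfl⟩ := exists_int_scale h
  obtain ⟨L, hLf, hL⟩ := exists_proj h5 hg
  rw [ordProj_eq (seriesTendsto_scale hL c)]
  exact ⟨seriesTendsto_scale hL c, IsPadicForm.C_mul hLf c⟩

theorem seriesTendsto_add {S S' : ℕ → PowerSeries ℚ_[p]} (h : SeriesTendsto S f)
    (h' : SeriesTendsto S' f') : SeriesTendsto (fun i => S i + S' i) (f + f') := fun ε hε => by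
  filter_upwards [h ε hε, h' ε hε] with i hi hi'
  rw [add_sub_add_comm]
  exact hi.add hi'

theorem ordProj_add (h5 : 5 ≤ p) (h : IsPadicForm f κ) (h' : IsPadicForm f' κ) :
    ordProj p (f + f') = ordProj p f + ordProj p f' :=
  ordProj_eq (by
    simpa only [uPow_add] using seriesTendsto_add (ordProj_spec h5 h).1 (ordProj_spec h5 h').1)

theorem ordProj_C_mul (h5 : 5 ≤ p) (h : IsPadicForm f κ) (c : ℚ_[p]) :
    ordProj p (C c * f) = C c * ordProj p f := by
  obtain ⟨d, g, -, hg, rfl⟩ := exists_int_scale h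
  obtain ⟨L, -, hL⟩ := exists_proj h5 hg
  rw [← mul_assoc, ← map_mul, ordProj_eq (seriesTendsto_scale hL (c * d)),
    ordProj_eq (seriesTendsto_scale hL d), ← mul_assoc, ← map_mul]

theorem ordProj_zero : ordProj p (0 : PowerSeries ℚ_[p]) = 0 :=
  ordProj_eq fun ε hε => Eventually.of_forall fun i n => by simp [hε.le]

/-- `e` of an integral form is integral. -/
theorem exists_int_ordProj (h5 : 5 ≤ p) (hg : IsIntForm κ g) :
    ∃ L : PowerSeries ℤ_[p], IsIntForm κ L ∧ ordProj p (toQps p g) = toQps p L ∧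
      ∀ a : ℕ, ∀ᶠ i : ℕ in atTop, (p : PowerSeries ℤ_[p]) ^ a ∣ L - uPow p i.factorial g := by
  obtain ⟨L, hLf, hL⟩ := exists_proj h5 hg
  refine ⟨L, hLf, ?_, hL⟩
  have h := ordProj_eq (seriesTendsto_scale hL 1)
  rwa [map_one, one_mul, one_mul] at h

/-- **`e` is idempotent.** -/
theorem ordProj_idem (h5 : 5 ≤ p) (h : IsPadicForm f κ) :
    ordProj p (ordProj p f) = ordProj p f := by
  obtain ⟨c, g, -, hg, rfl⟩ := exists_int_scale h
  obtain ⟨L, -, hL⟩ := exists_proj h5 hg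
  have hLL : ∀ a : ℕ, ∀ᶠ i : ℕ in atTop,
      (p : PowerSeries ℤ_[p]) ^ a ∣ L - uPow p i.factorial L := fun a => by
    obtain ⟨i₀, d, hd, hper⟩ := exists_period h5 a hg
    obtain ⟨M, hM, hM'⟩ := ((hL a).and (eventually_ge_atTop i₀)).exists
    filter_upwards [eventually_ge_atTop d] with i hi
    obtain ⟨j, hj⟩ := Nat.dvd_factorial hd hi
    have h1 := pow_dvd_uPow hM i.factorial
    rw [uPow_sub, uPow_add', add_comm, hj] at h1
    have h2 := period_mul hper j (hM'.trans (Nat.self_le_factorial M))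
    rw [hj]
    have h3 := dvd_sub (dvd_sub hM h1) h2
    rwa [show L - uPow p M.factorial g - (uPow p (d * j) L - uPow p (M.factorial + d * j) g) -
      (uPow p (M.factorial + d * j) g - uPow p M.factorial g) = L - uPow p (d * j) L by ring] at h3
  rw [ordProj_eq (seriesTendsto_scale hL c), ordProj_eq (seriesTendsto_scale hLL c)]

/-- **`e` commutes with `U`.** -/
theorem ordProj_uSer (h5 : 5 ≤ p) (h : IsPadicForm f κ) :
    ordProj p (uSer p f) = uSer p (ordProj p f) := by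
  refine ordProj_eq fun ε hε => ?_
  filter_upwards [(ordProj_spec h5 h).1 ε hε] with i hi
  have e : uPow p i.factorial (uSer p f) = uSer p (uPow p i.factorial f) := by
    rw [← uPow_one, ← uPow_one, uPow_add', uPow_add', add_comm]
  rw [e, ← uSer_sub]
  exact hi.uSer

/-- Forms of every weight exist. -/
theorem isPadicForm_zero (h5 : 5 ≤ p) (κ : Weights p) :
    IsPadicForm (0 : PowerSeries ℚ_[p]) κ := fun a => by
  have hp : p.Prime := Fact.out
  have : NeZero (p - 1) := ⟨by omega⟩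
  have hu : IsUnit (((p - 1 : ℕ)) : ℤ_[p]) := PadicInt.isUnit_iff.2 (le_antisymm
    (PadicInt.norm_le_one _) (not_lt.1 fun hlt => by
      rw [← Int.cast_natCast, PadicInt.norm_int_lt_one_iff_dvd, Int.natCast_dvd_natCast] at hlt
      have := Nat.le_of_dvd (by omega) hlt
      omega))
  obtain ⟨u, hu⟩ := hu
  obtain ⟨x, hx⟩ : ∃ x : ℤ_[p], x = (κ.2 - (κ.1.val : ℤ_[p])) * ↑u⁻¹ := ⟨_, rfl⟩
  have hk2 : κ.2 = (κ.1.val : ℤ_[p]) + ((p - 1 : ℕ) : ℤ_[p]) * x := by
    rw [hx, ← hu, mul_left_comm, Units.mul_inv, mul_one, add_sub_cancel]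
  refine ⟨κ.1.val + (p - 1) * x.appr a, C 0 * 0, ?_, ⟨?_, ?_⟩, ?_⟩
  · rw [mul_zero]
    exact ⟨0, by simp [UpperHalfPlane.qExpansion_zero]⟩
  · push_cast [ZMod.natCast_self, ZMod.natCast_zmod_val]
    ring
  · rw [hk2, Nat.cast_add, Nat.cast_mul, add_sub_add_left_eq_sub, ← mul_sub, norm_mul]
    refine (mul_le_of_le_one_left (norm_nonneg _) (PadicInt.norm_le_one _)).trans ?_
    rw [norm_sub_rev, PadicInt.norm_le_pow_iff_mem_span_pow]
    exact PadicInt.appr_spec a x
  · intro n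
    simp

/-- **The ordinary part** of weight `κ`. -/
def ordPart (κ : Weights p) : Submodule ℚ_[p] (PowerSeries ℚ_[p]) :=
  Submodule.span ℚ_[p] {f | IsPadicForm f κ ∧ ordProj p f = f}

theorem mem_ordPart (h5 : 5 ≤ p) : f ∈ ordPart κ ↔ IsPadicForm f κ ∧ ordProj p f = f := by
  refine ⟨fun h => ?_, fun h => Submodule.subset_span h⟩
  induction h using Submodule.span_induction with
  | mem f h => exact h
  | zero => exact ⟨isPadicForm_zero h5 κ, ordProj_zero⟩
  | add f g _ _ hf hg =>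
    exact ⟨hf.1.add h5 hg.1, by rw [ordProj_add h5 hf.1 hg.1, hf.2, hg.2]⟩
  | smul c f _ hf =>
    rw [PowerSeries.smul_eq_C_mul]
    exact ⟨hf.1.C_mul c, by rw [ordProj_C_mul h5 hf.1, hf.2]⟩

theorem ordProj_mem (h5 : 5 ≤ p) (h : IsPadicForm f κ) : ordProj p f ∈ ordPart κ :=
  (mem_ordPart h5).2 ⟨(ordProj_spec h5 h).2, ordProj_idem h5 h⟩

theorem uSer_mem (h5 : 5 ≤ p) (h : f ∈ ordPart κ) : uSer p f ∈ ordPart κ := by
  obtain ⟨h1, h2⟩ := (mem_ordPart h5).1 h
  exact (mem_ordPart h5).2 ⟨h1.uSer h5, by rw [ordProj_uSer h5 h1, h2]⟩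

/-- **`U` is injective on the ordinary part.** -/
theorem eq_zero_of_uSer (h5 : 5 ≤ p) (h : f ∈ ordPart κ) (h0 : uSer p f = 0) : f = 0 := by
  rw [← ((mem_ordPart h5).1 h).2]
  refine ordProj_eq fun ε hε => Eventually.of_forall fun i => ?_
  obtain ⟨j, hj⟩ : ∃ j, i.factorial = j + 1 := ⟨i.factorial - 1, by
    have := Nat.factorial_pos i
    omega⟩
  have hz : uPow p i.factorial f = 0 := by
    rw [hj, ← uPow_add', uPow_one, h0]
    exact PowerSeries.ext fun n => by simp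
  show SupLe (uPow p i.factorial f - 0) ε
  rw [hz]
  exact fun n => by simp [hε.le]

end FA.OrdinaryProj

end
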