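import Fermat.Agent.OrdinaryProj.Lift
import Mathlib.Topology.Sequences

/-!
# The rank of the ordinary part

Ordinary lifts of a basis of the forms modulo `p` fixed by a power of `U` are a basis of the
ordinary part: they are independent modulo `p`, and generate by successive approximation.
-/

set_option autoImplicit false
set_option linter.unusedSectionVars false

noncomputable section

open PowerSeries Filter Topology

namespace FA.OrdinaryProj

open FA.PadicForms FA.SwinnertonDyer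

variable {p : ℕ} [Fact p.Prime] {κ : Weights p} {k : ℕ}

/-- An integral ordinary form reduces to a form fixed by a power of `U`. -/
theorem redSer_mem (h5 : 5 ≤ p) (hk : 3 ≤ k) (hc : (k : ZMod (p - 1)) = κ.1)
    {g : PowerSeries ℤ_[p]} (hg : IsIntForm κ g) (he : ordProj p (toQps p g) = toQps p g) :
    redSer p g ∈ ordModP p k := by
  obtain ⟨L, -, hLe, hL⟩ := exists_int_ordProj h5 hg
  have hLg : L = g := toQps_injective (hLe.symm.trans he)
  obtain ⟨i, hi⟩ := (hL 1).exists
  rw [hLg, pow_one, ← redSer_eq_iff, redSer_uPow] at hi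
  obtain ⟨n, hn, hf⟩ := hg.exists_modP h5
  exact mem_ordModP_of_class h5 hf (hn.trans hc.symm) hk (Nat.factorial_pos i) hi.symm

/-- An ordinary lift: `e` of a lift reduces to the same form if `U` fixes it up to a power. -/
theorem redSer_ordProj (h5 : 5 ≤ p) {g : PowerSeries ℤ_[p]} (hg : IsIntForm κ g)
    {d : ℕ} (hd : 0 < d) (hv : uPow p d (redSer p g) = redSer p g) :
    ∃ L : PowerSeries ℤ_[p], IsIntForm κ L ∧ ordProj p (toQps p g) = toQps p L ∧
      ordProj p (toQps p L) = toQps p L ∧ redSer p L = redSer p g := by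
  obtain ⟨L, hLf, hLe, hL⟩ := exists_int_ordProj h5 hg
  refine ⟨L, hLf, hLe, hLe ▸ ordProj_idem h5 hg, ?_⟩
  obtain ⟨i, hi, hid⟩ := ((hL 1).and (eventually_ge_atTop d)).exists
  obtain ⟨j, hj⟩ := Nat.dvd_factorial hd hid
  rw [pow_one, ← redSer_eq_iff, redSer_uPow, hj, uPow_fixed hv j] at hi
  exact hi

/-- The forms `∑ x j G j`. -/
def combine {ι : Type*} [Fintype ι] (G : ι → PowerSeries ℤ_[p]) (x : ι → ℤ_[p]) :
    PowerSeries ℤ_[p] :=
  ∑ j, C (x j) * G j

variable {ι : Type*} [Fintype ι] {G : ι → PowerSeries ℤ_[p]}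

theorem combine_ordinary (h5 : 5 ≤ p)
    (hG : ∀ j, IsIntForm κ (G j) ∧ ordProj p (toQps p (G j)) = toQps p (G j)) (x : ι → ℤ_[p]) :
    IsIntForm κ (combine G x) ∧ ordProj p (toQps p (combine G x)) = toQps p (combine G x) := by
  have h : toQps p (combine G x) ∈ ordPart κ := by
    rw [combine, map_sum]
    refine Submodule.sum_mem _ fun j _ => ?_
    rw [map_mul, toQps, map_C, ← PowerSeries.smul_eq_C_mul]
    exact Submodule.smul_mem _ _ ((mem_ordPart h5).2 (hG j))
  exact (mem_ordPart h5).1 h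

theorem redSer_combine (G : ι → PowerSeries ℤ_[p]) (x : ι → ℤ_[p]) :
    redSer p (combine G x) = ∑ j, PadicInt.toZMod (x j) • redSer p (G j) := by
  rw [combine, map_sum]
  refine Finset.sum_congr rfl fun j _ => ?_
  rw [map_mul, redSer, map_C, PowerSeries.smul_eq_C_mul]

/-- **Successive approximation.** -/
theorem exists_combine (h5 : 5 ≤ p) (hk : 3 ≤ k) (hc : (k : ZMod (p - 1)) = κ.1)
    (hG : ∀ j, IsIntForm κ (G j) ∧ ordProj p (toQps p (G j)) = toQps p (G j))
    (hspan : ordModP p k ≤ Submodule.span (ZMod p) (Set.range fun j => redSer p (G j)))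
    {g : PowerSeries ℤ_[p]} (hg : IsIntForm κ g) (he : ordProj p (toQps p g) = toQps p g) :
    ∃ x, g = combine G x := by
  have happ : ∀ a : ℕ, ∃ x, (p : PowerSeries ℤ_[p]) ^ a ∣ g - combine G x := fun a => by
    induction a with
    | zero => exact ⟨0, by simp⟩
    | succ a ih =>
      obtain ⟨x, h, hh⟩ := ih
      have hd := (mem_ordPart (κ := κ) h5).1 (Submodule.sub_mem _ ((mem_ordPart h5).2 ⟨hg, he⟩)
        ((mem_ordPart h5).2 (combine_ordinary h5 hG x)))
      rw [← map_sub, hh] at hd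
      obtain ⟨hd1, hd2⟩ := hd
      have hh1 : IsIntForm κ h := IsIntForm.div_pow hd1
      have hh2 : ordProj p (toQps p h) = toQps p h := by
        rw [map_mul, toQps_natCast_pow, ordProj_C_mul h5 hh1] at hd2
        exact mul_left_cancel₀ ((map_ne_zero_iff _ PowerSeries.C_injective).2
          (pow_ne_zero _ (Nat.cast_ne_zero.2 (Fact.out : p.Prime).ne_zero))) hd2
      obtain ⟨c, hc'⟩ := (Submodule.mem_span_range_iff_exists_fun _).1
        (hspan (redSer_mem h5 hk hc hh1 hh2))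
      obtain ⟨q, hq⟩ : (p : PowerSeries ℤ_[p]) ∣
          h - combine G fun j => ((c j).val : ℤ_[p]) := by
        rw [← redSer_eq_iff, redSer_combine, ← hc']
        exact Finset.sum_congr rfl fun j _ => by rw [map_natCast, ZMod.natCast_zmod_val]
      refine ⟨x + (p : ℤ_[p]) ^ a • fun j => ((c j).val : ℤ_[p]), q, ?_⟩
      have e : combine G (x + (p : ℤ_[p]) ^ a • fun j => ((c j).val : ℤ_[p])) =
          combine G x + (p : PowerSeries ℤ_[p]) ^ a * combine G fun j => ((c j).val : ℤ_[p]) := by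
        simp only [combine, Finset.mul_sum, ← Finset.sum_add_distrib]
        refine Finset.sum_congr rfl fun j _ => ?_
        rw [Pi.add_apply, Pi.smul_apply, smul_eq_mul, map_add, map_mul, map_pow, map_natCast]
        ring
      rw [e, pow_succ, ← sub_sub, hh, ← mul_sub, hq, mul_assoc]
  choose x hx using happ
  obtain ⟨y, φ, hφ, hy⟩ := CompactSpace.tendsto_subseq x
  refine ⟨y, PowerSeries.ext fun n => ?_⟩
  have hcoeff : ∀ z, coeff n (combine G z) = ∑ j, z j * coeff n (G j) := fun z => by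
    simp [combine]
  have h1 : Tendsto (fun i => coeff n (combine G (x (φ i)))) atTop
      (𝓝 (coeff n (combine G y))) := by
    simp only [hcoeff]
    exact tendsto_finsetSum _ fun j _ => ((tendsto_pi_nhds.1 hy j).mul_const _)
  have h2 : Tendsto (fun i => coeff n (combine G (x (φ i)))) atTop (𝓝 (coeff n g)) := by
    refine tendsto_iff_norm_sub_tendsto_zero.2 (Metric.tendsto_atTop.2 fun ε hε => ?_)
    obtain ⟨a, ha⟩ := exists_pow_neg_lt (p := p) hε
    refine ⟨a, fun i hi => ?_⟩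
    rw [Real.dist_eq, sub_zero, abs_of_nonneg (norm_nonneg _), norm_sub_rev, ← map_sub]
    exact ((norm_le_iff_dvd.2 (pow_dvd_iff.1 (hx (φ i)) n)).trans
      (pow_neg_mono (hi.trans (hφ.id_le i)))).trans_lt ha
  exact tendsto_nhds_unique h2 h1

/-- **Independence.** -/
theorem linearIndependent_toQps
    (hli : LinearIndependent (ZMod p) fun j => redSer p (G j)) :
    LinearIndependent ℚ_[p] fun j => toQps p (G j) := by
  rw [Fintype.linearIndependent_iff] at hli ⊢
  intro c hc
  by_contra hne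
  push Not at hne
  obtain ⟨j₁, hj₁⟩ := hne
  have : Nonempty ι := ⟨j₁⟩
  obtain ⟨j₀, hj₀⟩ := Finite.exists_max fun j => ‖c j‖
  have h0 : c j₀ ≠ 0 := fun e => hj₁ (norm_le_zero_iff.1 (by simpa [e] using hj₀ j₁))
  have hle : ∀ j, ‖c j / c j₀‖ ≤ 1 := fun j => by
    rw [norm_div, div_le_one (norm_pos_iff.2 h0)]
    exact hj₀ j
  obtain ⟨x, hx⟩ : ∃ x : ι → ℤ_[p], ∀ j, (x j : ℚ_[p]) = c j / c j₀ :=
    ⟨fun j => ⟨_, hle j⟩, fun _ => rfl⟩
  have hz : toQps p (combine G x) = 0 := by
    rw [combine, map_sum, ← smul_zero (c j₀)⁻¹, ← hc, Finset.smul_sum]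
    refine Finset.sum_congr rfl fun j _ => ?_
    rw [map_mul, toQps, map_C, smul_smul, PowerSeries.smul_eq_C_mul,
      show PadicInt.Coe.ringHom (x j) = (x j : ℚ_[p]) from rfl, hx, div_eq_inv_mul]
  have h1 : redSer p (combine G x) = 0 := by
    rw [toQps_injective (hz.trans (map_zero _).symm), map_zero]
  rw [redSer_combine] at h1
  have h2 : x j₀ = 1 := Subtype.ext (by rw [hx, div_self h0]; rfl)
  have h3 := hli _ h1 j₀
  rw [h2, map_one] at h3
  exact one_ne_zero h3

/-- **The ordinary lifts of a basis are a basis.** -/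
theorem ordPart_eq_span (h5 : 5 ≤ p) (hk : 3 ≤ k) (hc : (k : ZMod (p - 1)) = κ.1)
    (hG : ∀ j, IsIntForm κ (G j) ∧ ordProj p (toQps p (G j)) = toQps p (G j))
    (hspan : ordModP p k ≤ Submodule.span (ZMod p) (Set.range fun j => redSer p (G j))) :
    ordPart κ = Submodule.span ℚ_[p] (Set.range fun j => toQps p (G j)) := by
  refine le_antisymm (fun f hf => ?_) (Submodule.span_le.2 ?_)
  · obtain ⟨h1, h2⟩ := (mem_ordPart h5).1 hf
    obtain ⟨c, g, hc0, hg, rfl⟩ := exists_int_scale h1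
    rw [ordProj_C_mul h5 hg] at h2
    obtain ⟨x, rfl⟩ := exists_combine h5 hk hc hG hspan hg
      (mul_left_cancel₀ ((map_ne_zero_iff _ PowerSeries.C_injective).2 hc0) h2)
    rw [combine, map_sum, Finset.mul_sum]
    refine Submodule.sum_mem _ fun j _ => ?_
    rw [map_mul, toQps, map_C, ← mul_assoc, ← map_mul, ← PowerSeries.smul_eq_C_mul]
    exact Submodule.smul_mem _ _ (Submodule.subset_span ⟨j, rfl⟩)
  · rintro _ ⟨j, rfl⟩
    exact (mem_ordPart h5).2 (hG j)

/-- Ordinary lifts of a basis of `ordModP p k`, of weight `κ`. -/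
theorem exists_ord_lifts (h5 : 5 ≤ p) (hc : (k : ZMod (p - 1)) = κ.1) :
    ∃ G : Fin (Module.finrank (ZMod p) ↥(ordModP p k)) → PowerSeries ℤ_[p],
      (∀ j, IsIntForm κ (G j) ∧ ordProj p (toQps p (G j)) = toQps p (G j)) ∧
      LinearIndependent (ZMod p) (fun j => redSer p (G j)) ∧
      ordModP p k ≤ Submodule.span (ZMod p) (Set.range fun j => redSer p (G j)) := by
  have := finite_ordModP h5 k
  have : Module.Finite (ZMod p) ↥(ordModP p k) := .of_finite
  obtain ⟨b, -⟩ : ∃ b : Module.Basis (Fin (Module.finrank (ZMod p) ↥(ordModP p k))) (ZMod p)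
      ↥(ordModP p k), True := ⟨Module.finBasis (ZMod p) _, trivial⟩
  have hb : ∀ j, ∃ L : PowerSeries ℤ_[p], IsIntForm κ L ∧ ordProj p (toQps p L) = toQps p L ∧
      redSer p L = (b j : PowerSeries (ZMod p)) := fun j => by
    obtain ⟨hf, d, hd, hv⟩ := (mem_ordModP h5).1 (b j).2
    obtain ⟨g, hg, hgv⟩ := exists_lift h5 hc hf
    obtain ⟨L, hL, -, hL', hLr⟩ := redSer_ordProj h5 hg hd (by rw [hgv]; exact hv)
    exact ⟨L, hL, hL', hLr.trans hgv⟩
  choose L hL hL' hLr using hb
  have e : (fun j => redSer p (L j)) = (ordModP p k).subtype ∘ b := funext hLr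
  refine ⟨L, fun j => ⟨hL j, hL' j⟩, ?_, ?_⟩
  · rw [e]
    exact b.linearIndependent.map' _ (Submodule.ker_subtype _)
  · rw [e, Set.range_comp, Submodule.span_image, b.span_eq, Submodule.map_subtype_top]

/-- **The rank of the ordinary part** is that of the forms modulo `p` fixed by a power of `U`. -/
theorem finrank_ordPart (h5 : 5 ≤ p) (hk : 3 ≤ k) (hc : (k : ZMod (p - 1)) = κ.1) :
    Module.Finite ℚ_[p] ↥(ordPart κ) ∧
      Module.finrank ℚ_[p] ↥(ordPart κ) = Module.finrank (ZMod p) ↥(ordModP p k) := by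
  obtain ⟨G, hG, hli, hspan⟩ := exists_ord_lifts (κ := κ) h5 hc
  rw [ordPart_eq_span h5 hk hc hG hspan]
  refine ⟨.span_of_finite _ (Set.finite_range _), ?_⟩
  rw [finrank_span_eq_card (linearIndependent_toQps hli), Fintype.card_fin]

/-- Some weight at least `3` lies in each class. -/
theorem exists_weight (h5 : 5 ≤ p) (κ : Weights p) :
    ∃ k : ℕ, 3 ≤ k ∧ (k : ZMod (p - 1)) = κ.1 := by
  have : NeZero (p - 1) := ⟨by omega⟩
  exact ⟨κ.1.val + (p - 1), by omega, by simp⟩

/-- **`U` is surjective on the ordinary part.** -/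
theorem exists_uSer_eq (h5 : 5 ≤ p) {f : PowerSeries ℚ_[p]} (hf : f ∈ ordPart κ) :
    ∃ g ∈ ordPart κ, uSer p g = f := by
  obtain ⟨k, hk, hc⟩ := exists_weight h5 κ
  have := (finrank_ordPart h5 hk hc).1
  obtain ⟨u, hu⟩ : ∃ u : ↥(ordPart κ) →ₗ[ℚ_[p]] ↥(ordPart κ),
      ∀ x, (u x : PowerSeries ℚ_[p]) = uSer p (x : PowerSeries ℚ_[p]) :=
    ⟨{ toFun := fun x => ⟨uSer p (x : PowerSeries ℚ_[p]), uSer_mem h5 x.2⟩
       map_add' := fun x y => Subtype.ext (PowerSeries.ext fun n => by simp [coeff_uSer])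
       map_smul' := fun c x => Subtype.ext (PowerSeries.ext fun n => by simp [coeff_uSer]) },
      fun _ => rfl⟩
  have hinj : Function.Injective u := (injective_iff_map_eq_zero u).2 fun x hx =>
    Subtype.ext (eq_zero_of_uSer h5 x.2 (by rw [← hu, hx]; rfl))
  obtain ⟨g, hg⟩ := LinearMap.injective_iff_surjective.1 hinj ⟨f, hf⟩
  exact ⟨g, g.2, by rw [← hu, hg]⟩

/-- **Control**: in weight `k ≥ 3` the ordinary forms come from the classical forms. -/
theorem exists_classical (h5 : 5 ≤ p) (hk : 3 ≤ k) {f : PowerSeries ℚ_[p]}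
    (hf : f ∈ ordPart (natWeight p k)) :
    ∃ h ∈ Submodule.span ℚ_[p] {s | ∃ S, IsRatForm k S ∧ toQp p S = s},
      IsPadicForm h (natWeight p k) ∧ ordProj p h = f := by
  have := finite_ordModP (p := p) h5 k
  have : Module.Finite (ZMod p) ↥(ordModP p k) := .of_finite
  obtain ⟨b, -⟩ : ∃ b : Module.Basis (Fin (Module.finrank (ZMod p) ↥(ordModP p k))) (ZMod p)
      ↥(ordModP p k), True := ⟨Module.finBasis (ZMod p) _, trivial⟩
  have hb : ∀ j, ∃ (S : PowerSeries ℚ) (g L : PowerSeries ℤ_[p]), IsRatForm k S ∧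
      toQps p g = toQp p S ∧ IsIntForm (natWeight p k) L ∧
      ordProj p (toQps p g) = toQps p L ∧ ordProj p (toQps p L) = toQps p L ∧
      redSer p L = (b j : PowerSeries (ZMod p)) := fun j => by
    obtain ⟨hv', d, hd, hv⟩ := (mem_ordModP h5).1 (b j).2
    obtain ⟨S, g, hS, hg, hgv⟩ := exists_lift_classical hv'
    have hg' : IsIntForm (natWeight p k) g := by
      rw [IsIntForm, hg]
      exact hS.isPadicForm
    obtain ⟨L, hL, hLe, hL', hLr⟩ := redSer_ordProj h5 hg' hd (by rw [hgv]; exact hv)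
    exact ⟨S, g, L, hS, hg, hL, hLe, hL', hLr.trans hgv⟩
  choose S g L hS hg hL hLe hL' hLr using hb
  have e : (fun j => redSer p (L j)) = (ordModP p k).subtype ∘ b := funext hLr
  rw [ordPart_eq_span h5 hk rfl (fun j => ⟨hL j, hL' j⟩) (by
    rw [e, Set.range_comp, Submodule.span_image, b.span_eq, Submodule.map_subtype_top])] at hf
  induction hf using Submodule.span_induction with
  | mem x hx =>
    obtain ⟨j, rfl⟩ := hx
    exact ⟨_, Submodule.subset_span ⟨S j, hS j, rfl⟩, (hS j).isPadicForm,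
      by rw [← hg, hLe]⟩
  | zero => exact ⟨0, zero_mem _, isPadicForm_zero h5 _, ordProj_zero⟩
  | add x y _ _ hx hy =>
    obtain ⟨u, hu, hu', rfl⟩ := hx
    obtain ⟨v, hv, hv', rfl⟩ := hy
    exact ⟨u + v, add_mem hu hv, hu'.add h5 hv', ordProj_add h5 hu' hv'⟩
  | smul c x _ hx =>
    obtain ⟨u, hu, hu', rfl⟩ := hx
    refine ⟨c • u, Submodule.smul_mem _ c hu, ?_, ?_⟩
    · rw [PowerSeries.smul_eq_C_mul]
      exact hu'.C_mul c
    · rw [PowerSeries.smul_eq_C_mul, PowerSeries.smul_eq_C_mul, ordProj_C_mul h5 hu']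

end FA.OrdinaryProj

end
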