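import Fermat.Agent.PadicForms.Eisenstein
import Fermat.Agent.Tau.OrdinaryModP
import Mathlib.NumberTheory.Basic
import Mathlib.NumberTheory.Padics.ProperSpace

/-!
# Series over `ℤ_p` and the powers of `U`

The series over `ℤ_p` map to the series over `ℚ_p` and over `𝔽_p`. The `i`-th power of `U` takes
the coefficient at `p ^ i n` to the place `n`.
-/

set_option autoImplicit false
set_option linter.unusedSectionVars false

noncomputable section

open PowerSeries Filter Topology

namespace FA.OrdinaryProj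

open FA.PadicForms

variable (p : ℕ) [Fact p.Prime]

/-- The series over `ℚ_p` of one over `ℤ_p`. -/
def toQps : PowerSeries ℤ_[p] →+* PowerSeries ℚ_[p] := PowerSeries.map PadicInt.Coe.ringHom

/-- Reduction modulo `p`. -/
def redSer : PowerSeries ℤ_[p] →+* PowerSeries (ZMod p) := PowerSeries.map PadicInt.toZMod

/-- `U ^ i`. -/
def uPow {R : Type*} [CommRing R] (i : ℕ) (f : PowerSeries R) : PowerSeries R :=
  PowerSeries.mk fun n => coeff (p ^ i * n) f

variable {p}

@[simp]
theorem coeff_toQps (n : ℕ) (g : PowerSeries ℤ_[p]) :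
    coeff n (toQps p g) = ((coeff n g : ℤ_[p]) : ℚ_[p]) := by
  simp [toQps]

@[simp]
theorem coeff_redSer (n : ℕ) (g : PowerSeries ℤ_[p]) :
    coeff n (redSer p g) = PadicInt.toZMod (coeff n g) := by
  simp [redSer]

theorem toQps_injective : Function.Injective (toQps p) :=
  PowerSeries.map_injective _ Subtype.val_injective

theorem supLe_toQps (g : PowerSeries ℤ_[p]) : SupLe (toQps p g) 1 := fun n => by
  rw [coeff_toQps]
  exact PadicInt.norm_le_one _

theorem pow_dvd_iff {a : ℕ} {g : PowerSeries ℤ_[p]} :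
    (p : PowerSeries ℤ_[p]) ^ a ∣ g ↔ ∀ n, (p : ℤ_[p]) ^ a ∣ coeff n g := by
  rw [← map_natCast (C : ℤ_[p] →+* PowerSeries ℤ_[p]) p, ← map_pow]
  constructor
  · rintro ⟨h, rfl⟩ n
    rw [coeff_C_mul]
    exact dvd_mul_right _ _
  · intro h
    choose c hc using h
    exact ⟨PowerSeries.mk c, PowerSeries.ext fun n => by rw [coeff_C_mul, coeff_mk, hc n]⟩

theorem norm_le_iff_dvd {a : ℕ} {x : ℤ_[p]} :
    ‖x‖ ≤ (p : ℝ) ^ (-(a : ℤ)) ↔ (p : ℤ_[p]) ^ a ∣ x := by
  rw [PadicInt.norm_le_pow_iff_mem_span_pow, Ideal.mem_span_singleton]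

theorem supLe_iff {a : ℕ} {g : PowerSeries ℤ_[p]} :
    SupLe (toQps p g) ((p : ℝ) ^ (-(a : ℤ))) ↔ (p : PowerSeries ℤ_[p]) ^ a ∣ g := by
  rw [pow_dvd_iff]
  refine forall_congr' fun n => ?_
  rw [coeff_toQps, ← norm_le_iff_dvd]
  rfl

theorem redSer_eq_zero {g : PowerSeries ℤ_[p]} :
    redSer p g = 0 ↔ (p : PowerSeries ℤ_[p]) ∣ g := by
  rw [← pow_one (p : PowerSeries ℤ_[p]), pow_dvd_iff, PowerSeries.ext_iff]
  refine forall_congr' fun n => ?_
  rw [coeff_redSer, map_zero, pow_one, ← RingHom.mem_ker, PadicInt.ker_toZMod,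
    PadicInt.maximalIdeal_eq_span_p, Ideal.mem_span_singleton]

theorem redSer_eq_iff {g h : PowerSeries ℤ_[p]} :
    redSer p g = redSer p h ↔ (p : PowerSeries ℤ_[p]) ∣ g - h := by
  rw [← redSer_eq_zero, map_sub, sub_eq_zero]

/-- Every series modulo `p` lifts. -/
theorem redSer_surjective : Function.Surjective (redSer p) := fun v =>
  ⟨PowerSeries.mk fun n => ((coeff n v).val : ℤ_[p]),
    PowerSeries.ext fun n => by rw [coeff_redSer, coeff_mk, map_natCast, ZMod.natCast_zmod_val]⟩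

/-- A sequence congruent to itself modulo higher and higher powers of `p` has a limit. -/
theorem exists_limit (g : ℕ → PowerSeries ℤ_[p])
    (hg : ∀ a, (p : PowerSeries ℤ_[p]) ^ a ∣ g (a + 1) - g a) :
    ∃ L, ∀ a, (p : PowerSeries ℤ_[p]) ^ a ∣ L - g a := by
  have h1 : ∀ a b, a ≤ b → (p : PowerSeries ℤ_[p]) ^ a ∣ g b - g a := fun a b hb => by
    induction b, hb using Nat.le_induction with
    | base => simp
    | succ b hb ih =>
      rw [← sub_add_sub_cancel (g (b + 1)) (g b) (g a)]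
      exact dvd_add ((pow_dvd_pow _ hb).trans (hg b)) ih
  have h2 : ∀ n a b, a ≤ b → ‖coeff n (g b) - coeff n (g a)‖ ≤ (p : ℝ) ^ (-(a : ℤ)) :=
    fun n a b hb => by
      rw [norm_le_iff_dvd, ← map_sub]
      exact pow_dvd_iff.1 (h1 a b hb) n
  have hlim : ∀ n, ∃ x, Tendsto (fun a => coeff n (g a)) atTop (𝓝 x) := fun n => by
    refine cauchySeq_tendsto_of_complete (Metric.cauchySeq_iff'.2 fun ε hε => ?_)
    obtain ⟨a, ha⟩ := exists_pow_neg_lt (p := p) hε
    refine ⟨a, fun b hb => ?_⟩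
    rw [dist_eq_norm]
    exact (h2 n a b hb).trans_lt ha
  choose x hx using hlim
  refine ⟨PowerSeries.mk x, fun a => pow_dvd_iff.2 fun n => ?_⟩
  rw [map_sub, coeff_mk, ← norm_le_iff_dvd]
  exact le_of_tendsto ((hx n).sub_const _).norm (eventually_atTop.2 ⟨a, fun b hb => h2 n a b hb⟩)

/-! ### Powers of `U` -/

section

variable {R : Type*} [CommRing R]

@[simp]
theorem coeff_uPow (i n : ℕ) (f : PowerSeries R) :
    coeff n (uPow p i f) = coeff (p ^ i * n) f := coeff_mk _ _

theorem uPow_add' (i j : ℕ) (f : PowerSeries R) : uPow p i (uPow p j f) = uPow p (i + j) f :=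
  PowerSeries.ext fun n => by
    rw [coeff_uPow, coeff_uPow, coeff_uPow, pow_add, mul_assoc, mul_left_comm]

theorem uPow_zero (f : PowerSeries R) : uPow p 0 f = f := PowerSeries.ext fun n => by simp

theorem uPow_one (f : PowerSeries R) : uPow p 1 f = uSer p f := PowerSeries.ext fun n => by
  simp [coeff_uSer]

theorem uPow_add (i : ℕ) (f g : PowerSeries R) : uPow p i (f + g) = uPow p i f + uPow p i g :=
  PowerSeries.ext fun n => by simp

theorem uPow_sub (i : ℕ) (f g : PowerSeries R) : uPow p i (f - g) = uPow p i f - uPow p i g :=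
  PowerSeries.ext fun n => by simp

theorem uPow_C_mul (i : ℕ) (c : R) (f : PowerSeries R) :
    uPow p i (C c * f) = C c * uPow p i f :=
  PowerSeries.ext fun n => by simp

theorem uPow_sum {ι : Type*} (i : ℕ) (s : Finset ι) (f : ι → PowerSeries R) :
    uPow p i (∑ j ∈ s, f j) = ∑ j ∈ s, uPow p i (f j) :=
  PowerSeries.ext fun n => by simp

end

theorem pow_dvd_uPow {a : ℕ} {g : PowerSeries ℤ_[p]} (h : (p : PowerSeries ℤ_[p]) ^ a ∣ g)
    (i : ℕ) : (p : PowerSeries ℤ_[p]) ^ a ∣ uPow p i g :=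
  pow_dvd_iff.2 fun n => by
    rw [coeff_uPow]
    exact pow_dvd_iff.1 h _

theorem toQps_uPow (i : ℕ) (g : PowerSeries ℤ_[p]) :
    toQps p (uPow p i g) = uPow p i (toQps p g) :=
  PowerSeries.ext fun n => by simp

theorem redSer_uPow (i : ℕ) (g : PowerSeries ℤ_[p]) :
    redSer p (uPow p i g) = uPow p i (redSer p g) :=
  PowerSeries.ext fun n => by simp

theorem uPow_eq_iterate (i : ℕ) (v : PowerSeries (ZMod p)) :
    (FA.SwinnertonDyer.uOp p)^[i] v = uPow p i v := by
  induction i with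
  | zero => exact (uPow_zero v).symm
  | succ i ih =>
    rw [Function.iterate_succ_apply', ih]
    refine PowerSeries.ext fun n => ?_
    rw [FA.SwinnertonDyer.uOp, coeff_mk, coeff_uPow, coeff_uPow, pow_succ, mul_assoc,
      mul_comm n p]

end FA.OrdinaryProj

end
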